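import Fermat.Agent.ExceptionalPoly.TopForm

/-!
# Collisions of a polynomial over a finite field

`(f X₀ - f X₁) / (X₀ - X₁)`: an absolutely irreducible factor other than `X₀ - X₁` gives about `q`
collisions; when `p ∤ n` and `gcd (n, q - 1) > 1` there is such a factor.
-/

set_option autoImplicit false
set_option linter.style.haveILetI false

noncomputable section

namespace FA.ExceptionalPoly

open MvPolynomial FA.AxFiniteFields

variable {k : Type*} [Field k]

/-- `(f X₀ - f X₁) / (X₀ - X₁)`. -/
def diffQuot (f : Polynomial k) : MvPolynomial (Fin 2) k :=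
  ∑ i ∈ Finset.range (f.natDegree + 1),
    C (f.coeff i) * ∑ j ∈ Finset.range i, X 0 ^ j * X 1 ^ (i - 1 - j)

theorem diffQuot_mul (f : Polynomial k) :
    diffQuot f * (X 0 - X 1) = Polynomial.aeval (X 0) f - Polynomial.aeval (X 1) f := by
  rw [diffQuot, Finset.sum_mul, Polynomial.aeval_eq_sum_range, Polynomial.aeval_eq_sum_range,
    ← Finset.sum_sub_distrib]
  refine Finset.sum_congr rfl fun i _ => ?_
  rw [mul_assoc, geom_sum₂_mul, smul_eq_C_mul, smul_eq_C_mul, mul_sub]

theorem totalDegree_diffQuot_le (f : Polynomial k) :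
    (diffQuot f).totalDegree ≤ f.natDegree := by
  refine (totalDegree_finsetSum _ _).trans (Finset.sup_le fun i hi => ?_)
  refine (totalDegree_mul _ _).trans ?_
  rw [totalDegree_C, zero_add]
  refine (totalDegree_finsetSum _ _).trans (Finset.sup_le fun j hj => ?_)
  refine (totalDegree_mul _ _).trans ?_
  rw [totalDegree_X_pow, totalDegree_X_pow]
  have := Finset.mem_range.1 hi
  have := Finset.mem_range.1 hj
  omega

theorem eval_zero_of_dvd {f : Polynomial k} {G : MvPolynomial (Fin 2) k} (hG : G ∣ diffQuot f)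
    {x : Fin 2 → k} (hx : eval x G = 0) : f.eval (x 0) = f.eval (x 1) := by
  have h0 : eval x (diffQuot f) = 0 :=
    zero_dvd_iff.1 (hx ▸ _root_.map_dvd (eval x) hG)
  have h := congrArg (eval x) (diffQuot_mul f)
  rw [map_mul, h0, zero_mul, map_sub] at h
  have key : ∀ i, eval x (Polynomial.aeval (X i : MvPolynomial (Fin 2) k) f) = f.eval (x i) :=
    fun i => by
      rw [← aeval_eq_eval, ← Polynomial.aeval_algHom_apply, aeval_X]
      rfl
  rw [key, key] at h
  exact sub_eq_zero.1 h.symm

theorem X_sub_X_dvd_of_diagonal {G : MvPolynomial (Fin 2) k}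
    (h : aeval (fun _ => (Polynomial.X : Polynomial k)) G = 0) :
    (X 0 - X 1 : MvPolynomial (Fin 2) k) ∣ G := by
  have e : (CurveRH.toBi G).eval Polynomial.X =
      aeval (fun _ => (Polynomial.X : Polynomial k)) G := by
    clear h
    induction G using MvPolynomial.induction_on with
    | C r => simp [CurveRH.toBi]
    | add u v hu hv =>
      simp only [CurveRH.toBi, map_add, Polynomial.eval_add] at hu hv ⊢
      rw [hu, hv]
    | mul_X u i hu =>
      simp only [CurveRH.toBi, map_mul, Polynomial.eval_mul, aeval_X] at hu ⊢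
      rw [hu]
      fin_cases i <;> simp
  have h1 := Polynomial.dvd_iff_isRoot.2 (show (CurveRH.toBi G).IsRoot Polynomial.X from e.trans h)
  have h2 := _root_.map_dvd (Polynomial.Bivariate.equivMvPolynomial k) h1
  rw [map_sub, Polynomial.Bivariate.equivMvPolynomial_X,
    Polynomial.Bivariate.equivMvPolynomial_C_X, CurveRH.toBi, AlgEquiv.apply_symm_apply] at h2
  rw [← neg_sub]
  exact h2.neg_left

theorem topForm_diffQuot {f : Polynomial k} (hn : 0 < f.natDegree) :
    topForm (diffQuot f) =
      Polynomial.C f.leadingCoeff * ∑ j ∈ Finset.range f.natDegree, Polynomial.X ^ j := by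
  have hterm : ∀ i, spread (C (f.coeff i) * ∑ j ∈ Finset.range i, X 0 ^ j * X 1 ^ (i - 1 - j)) =
      Polynomial.C (Polynomial.C (f.coeff i) * ∑ j ∈ Finset.range i, Polynomial.X ^ j) *
        Polynomial.X ^ (i - 1) := fun i => by
    simp only [spread, map_mul, map_sum, map_pow, aeval_X, aeval_C, Finset.mul_sum,
      Finset.sum_mul]
    refine Finset.sum_congr rfl fun j hj => ?_
    have hji : j + (i - 1 - j) = i - 1 := by have := Finset.mem_range.1 hj; omega
    rw [← hji, pow_add, Polynomial.algebraMap_apply]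
    simp only [Matrix.cons_val_zero, Matrix.cons_val_one, mul_pow]
    simp [Polynomial.algebraMap_eq]
    ring
  obtain ⟨n, hn'⟩ : ∃ n, f.natDegree = n + 1 := ⟨f.natDegree - 1, by omega⟩
  have hspread : spread (diffQuot f) = ∑ i ∈ Finset.range (n + 2),
      Polynomial.C (Polynomial.C (f.coeff i) * ∑ j ∈ Finset.range i, Polynomial.X ^ j) *
        Polynomial.X ^ (i - 1) := by
    rw [diffQuot, map_sum, hn']
    exact Finset.sum_congr rfl fun i _ => hterm i
  have hcoeff : (spread (diffQuot f)).coeff n =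
      Polynomial.C f.leadingCoeff * ∑ j ∈ Finset.range (n + 1), Polynomial.X ^ j := by
    rw [hspread, Polynomial.finsetSum_coeff, Finset.sum_eq_single (n + 1)]
    · rw [Polynomial.coeff_C_mul_X_pow, if_pos (by omega), Polynomial.leadingCoeff, hn']
    · intro i hi hne
      rw [Polynomial.coeff_C_mul_X_pow]
      split_ifs with h
      · have := Finset.mem_range.1 hi
        have hi0 : i = 0 := by omega
        rw [hi0]; simp
      · rfl
    · intro h
      exact absurd (Finset.mem_range.2 (by omega)) h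
  have hne : Polynomial.C f.leadingCoeff * ∑ j ∈ Finset.range (n + 1), Polynomial.X ^ j ≠
      (0 : Polynomial k) :=
    mul_ne_zero (Polynomial.C_ne_zero.2 (Polynomial.leadingCoeff_ne_zero.2
      fun e => by simp [e] at hn)) (Polynomial.monic_geom_sum_X n.succ_ne_zero).ne_zero
  have hdeg : (spread (diffQuot f)).natDegree = n := by
    refine le_antisymm ?_ (Polynomial.le_natDegree_of_ne_zero (hcoeff ▸ hne))
    rw [hspread]
    refine Polynomial.natDegree_sum_le_of_forall_le _ _ fun i hi => ?_
    refine (Polynomial.natDegree_C_mul_X_pow_le _ _).trans ?_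
    have := Finset.mem_range.1 hi
    omega
  rw [topForm, Polynomial.leadingCoeff, hdeg, hcoeff, hn']

/-- **A factor other than the diagonal, from a root of unity of order dividing `n`.** -/
theorem exists_absolutelyIrreducible_of_gcd [Finite k] {f : Polynomial k}
    (hp : (f.natDegree : k) ≠ 0) (hgcd : Nat.gcd f.natDegree (Nat.card k - 1) ≠ 1) :
    ∃ H, H ∣ diffQuot f ∧ ¬(X 0 - X 1 : MvPolynomial (Fin 2) k) ∣ H ∧
      Irreducible (H.map (algebraMap k (AlgebraicClosure k))) := by
  classical
  have := Fintype.ofFinite k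
  obtain ⟨n, hn⟩ : ∃ n, n = f.natDegree := ⟨_, rfl⟩
  rw [← hn] at hp hgcd
  have hn0 : 0 < n := Nat.pos_of_ne_zero fun e => hp (by rw [e, Nat.cast_zero])
  obtain ⟨l, hl, hld⟩ := Nat.exists_prime_and_dvd hgcd
  haveI : Fact l.Prime := ⟨hl⟩
  obtain ⟨u, hu⟩ := exists_prime_orderOf_dvd_card (G := kˣ) l (by
    rw [Fintype.card_units, ← Nat.card_eq_fintype_card]
    exact hld.trans (Nat.gcd_dvd_right _ _))
  obtain ⟨S, hS⟩ : ∃ S : Polynomial k, S = ∑ j ∈ Finset.range n, Polynomial.X ^ j := ⟨_, rfl⟩
  have hmul : S * (Polynomial.X - Polynomial.C 1) = Polynomial.X ^ n - Polynomial.C 1 := by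
    rw [hS, map_one, geom_sum_mul]
  have hz : S.IsRoot (u : k) := by
    have h := congrArg (Polynomial.eval (u : k)) hmul
    have hun : (u : k) ^ n = 1 := by
      have h' : u ^ n = 1 := orderOf_dvd_iff_pow_eq_one.1 (hu ▸ hld.trans (Nat.gcd_dvd_left _ _))
      simpa using congrArg Units.val h'
    simp only [Polynomial.eval_mul, Polynomial.eval_sub, Polynomial.eval_pow, Polynomial.eval_X,
      Polynomial.eval_C, hun, sub_self, mul_eq_zero] at h
    refine h.resolve_right fun e => hl.ne_one ?_
    rw [← hu, orderOf_eq_one_iff]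
    exact Units.ext (sub_eq_zero.1 e)
  have hsq : Squarefree S :=
    ((Polynomial.separable_X_pow_sub_C (1 : k) hp one_ne_zero).squarefree).squarefree_of_dvd
      ⟨_, hmul.symm⟩
  have hlc : f.leadingCoeff ≠ 0 := Polynomial.leadingCoeff_ne_zero.2 fun e => by
    rw [e, Polynomial.natDegree_zero] at hn; omega
  have htop : topForm (diffQuot f) = Polynomial.C f.leadingCoeff * S := by
    rw [topForm_diffQuot (hn ▸ hn0), hS, hn]
  have hne : diffQuot f ≠ 0 := fun e => by
    have h0 : topForm (diffQuot f) = 0 := by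
      rw [e, topForm, map_zero, Polynomial.leadingCoeff_zero]
    rw [htop, mul_eq_zero] at h0
    rcases h0 with h0 | h0
    · exact hlc (Polynomial.C_eq_zero.1 h0)
    · exact (Polynomial.monic_geom_sum_X hn0.ne').ne_zero (hS ▸ h0)
  obtain ⟨H, hHd, hHirr⟩ := exists_absolutelyIrreducible_factor hne (z := (u : k))
    (by rw [htop, Polynomial.IsRoot, Polynomial.eval_mul, hz, mul_zero])
    (fun hsqd => by
      rw [htop, (Polynomial.isUnit_C.2 (Ne.isUnit hlc)).dvd_mul_left, sq] at hsqd
      exact Polynomial.not_isUnit_X_sub_C _ (hsq _ hsqd))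
  refine ⟨H, hHd, fun hdiag => ?_, hHirr⟩
  have h1 : topForm (X 0 - X 1 : MvPolynomial (Fin 2) k) = Polynomial.X - Polynomial.C 1 := by
    have e : spread (X 0 - X 1 : MvPolynomial (Fin 2) k) =
        Polynomial.C (Polynomial.X - 1) * Polynomial.X := by
      simp [spread]
      ring
    rw [topForm, e, Polynomial.leadingCoeff_mul, Polynomial.leadingCoeff_C,
      Polynomial.leadingCoeff_X, mul_one, map_one]
  have h2 := topForm_dvd (hdiag.trans hHd)
  rw [h1, htop, (Polynomial.isUnit_C.2 (Ne.isUnit hlc)).dvd_mul_left,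
    Polynomial.dvd_iff_isRoot, Polynomial.IsRoot, hS] at h2
  simp at h2
  exact hp h2

/-- Collisions against the values omitted. -/
theorem collisions_le [Finite k] {f : Polynomial k} (hf : 0 < f.natDegree) :
    Nat.card {x : Fin 2 → k // f.eval (x 0) = f.eval (x 1) ∧ x 0 ≠ x 1} ≤
      f.natDegree * (Nat.card k - Nat.card (Set.range fun a => f.eval a)) := by
  classical
  have := Fintype.ofFinite k
  obtain ⟨m, hm⟩ : ∃ m : k → ℕ, ∀ v, m v = (Finset.univ.filter fun a => f.eval a = v).card :=
    ⟨_, fun _ => rfl⟩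
  obtain ⟨V, hV⟩ : ∃ V, V = Finset.univ.image fun a => f.eval a := ⟨_, rfl⟩
  have hmn : ∀ v, m v ≤ f.natDegree := fun v => by
    have hne : f - Polynomial.C v ≠ 0 := fun e => by
      rw [sub_eq_zero.1 e, Polynomial.natDegree_C] at hf; omega
    rw [hm]
    refine le_trans (Finset.card_le_card (t := (f - Polynomial.C v).roots.toFinset) fun a ha => ?_)
      ((Multiset.toFinset_card_le _).trans ((Polynomial.card_roots' _).trans
        (Polynomial.natDegree_sub_C (a := v)).le))
    rw [Multiset.mem_toFinset, Polynomial.mem_roots hne]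
    simp [(Finset.mem_filter.1 ha).2]
  have hsum : ∑ v ∈ V, m v = Fintype.card k := by
    simp only [hm, hV]
    exact (Finset.card_eq_sum_card_image _ _).symm
  have hpos : ∀ v ∈ V, 1 ≤ m v := fun v hv => by
    rw [hm]
    obtain ⟨a, -, ha⟩ := Finset.mem_image.1 (hV ▸ hv)
    exact Finset.card_pos.2 ⟨a, Finset.mem_filter.2 ⟨Finset.mem_univ _, ha⟩⟩
  obtain ⟨P, hP⟩ : ∃ P, P = Finset.univ.filter
      fun x : Fin 2 → k => f.eval (x 0) = f.eval (x 1) ∧ x 0 ≠ x 1 := ⟨_, rfl⟩
  have hPle : P.card ≤ ∑ v ∈ V, (P.filter fun x => f.eval (x 0) = v).card :=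
    le_of_eq (Finset.card_eq_sum_card_fiberwise fun x _ => Finset.mem_coe.2
      (hV ▸ Finset.mem_image_of_mem _ (Finset.mem_univ _)))
  have hfib : ∀ v ∈ V, (P.filter fun x => f.eval (x 0) = v).card ≤ f.natDegree * (m v - 1) := by
    intro v _
    refine le_trans ?_ (Nat.mul_le_mul_right _ (hmn v))
    refine le_trans (Finset.card_le_card_of_injOn (fun x : Fin 2 → k => (x 0, x 1))
      (t := (Finset.univ.filter fun a => f.eval a = v).offDiag) (fun x hx => ?_)
      fun x _ y _ e => ?_) ?_
    · rw [Finset.mem_coe, Finset.mem_filter, hP, Finset.mem_filter] at hx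
      rw [Finset.mem_coe, Finset.mem_offDiag, Finset.mem_filter, Finset.mem_filter]
      exact ⟨⟨Finset.mem_univ _, hx.2⟩, ⟨Finset.mem_univ _, hx.1.2.1 ▸ hx.2⟩, hx.1.2.2⟩
    · funext i
      fin_cases i
      · exact congrArg Prod.fst e
      · exact congrArg Prod.snd e
    · rw [Finset.offDiag_card, hm, Nat.mul_sub, mul_one]
  have hVcard : Nat.card (Set.range fun a => f.eval a) = V.card := by
    rw [← Nat.card_eq_finsetCard]
    exact Nat.card_congr (Equiv.subtypeEquivRight fun v => by simp [hV])
  rw [Nat.card_eq_fintype_card, Fintype.card_subtype, ← hP, hVcard, Nat.card_eq_fintype_card]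
  refine hPle.trans ((Finset.sum_le_sum hfib).trans ?_)
  rw [← Finset.mul_sum]
  refine Nat.mul_le_mul_left _ ?_
  rw [Finset.sum_tsub_distrib V hpos, hsum]
  simp

variable (k) in
/-- The error in the collision count. -/
def collisionError (n : ℕ) : ℝ :=
  (n * n : ℕ) * Real.sqrt (Nat.card k) + (CurveRH.planeError n + 1 + n : ℕ)

/-- **The value set.** -/
theorem card_le_of_factor [Finite k] {f : Polynomial k} (hf : 0 < f.natDegree)
    {G : MvPolynomial (Fin 2) k} (hG : G ∣ diffQuot f)
    (hdiag : ¬(X 0 - X 1 : MvPolynomial (Fin 2) k) ∣ G)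
    (hirr : Irreducible (G.map (algebraMap k (AlgebraicClosure k)))) :
    (Nat.card k : ℝ) ≤
      f.natDegree * ((Nat.card k : ℝ) - Nat.card (Set.range fun a => f.eval a)) +
        collisionError k f.natDegree := by
  classical
  have := Fintype.ofFinite k
  have hΦ : diffQuot f ≠ 0 := fun e => by
    have h := congrArg (aeval fun i : Fin 2 => if i = 0 then (Polynomial.X : Polynomial k) else 0)
      (diffQuot_mul f)
    rw [e, zero_mul, map_zero, map_sub, ← Polynomial.aeval_algHom_apply,
      ← Polynomial.aeval_algHom_apply, aeval_X, aeval_X] at h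
    simp only [Fin.isValue, if_true, one_ne_zero, if_false, Polynomial.aeval_X_left_apply] at h
    have h' := sub_eq_zero.1 h.symm
    have hdeg := congrArg Polynomial.natDegree h'
    rw [show Polynomial.aeval (0 : Polynomial k) f = Polynomial.C (f.coeff 0) by
      rw [← Polynomial.coeff_zero_eq_aeval_zero']; rfl] at hdeg
    rw [Polynomial.natDegree_C] at hdeg
    omega
  have hdeg : G.totalDegree ≤ f.natDegree :=
    (totalDegree_le_of_dvd_of_isDomain hG hΦ).trans (totalDegree_diffQuot_le f)
  have hW := (abs_le.1 (CurveRH.abs_natCard_sub_le k hdeg hirr)).1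
  have hsplit : Nat.card {x : Fin 2 → k // eval x G = 0} ≤
      f.natDegree + Nat.card {x : Fin 2 → k // f.eval (x 0) = f.eval (x 1) ∧ x 0 ≠ x 1} := by
    simp only [Nat.card_eq_fintype_card, Fintype.card_subtype]
    refine le_trans (Finset.card_le_card (t := (Finset.univ.filter fun x : Fin 2 → k =>
      eval x G = 0 ∧ x 0 = x 1) ∪ Finset.univ.filter fun x : Fin 2 → k =>
        f.eval (x 0) = f.eval (x 1) ∧ x 0 ≠ x 1) fun x hx => ?_)
      ((Finset.card_union_le _ _).trans (Nat.add_le_add_right ?_ _))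
    · have hx' := (Finset.mem_filter.1 hx).2
      rcases eq_or_ne (x 0) (x 1) with h | h
      · exact Finset.mem_union_left _ (Finset.mem_filter.2 ⟨Finset.mem_univ _, hx', h⟩)
      · exact Finset.mem_union_right _
          (Finset.mem_filter.2 ⟨Finset.mem_univ _, eval_zero_of_dvd hG hx', h⟩)
    obtain ⟨D, hD⟩ : ∃ D : Polynomial k, D = aeval (fun _ => Polynomial.X) G := ⟨_, rfl⟩
    have hD0 : D ≠ 0 := fun e => hdiag (X_sub_X_dvd_of_diagonal (hD ▸ e))
    refine le_trans (Finset.card_le_card_of_injOn (fun x : Fin 2 → k => x 0)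
      (t := D.roots.toFinset) (fun x hx => ?_) fun x hx y hy e => ?_)
      ((Multiset.toFinset_card_le _).trans ((Polynomial.card_roots' _).trans ?_))
    · rw [Finset.mem_coe, Finset.mem_filter] at hx
      rw [Finset.mem_coe, Multiset.mem_toFinset, Polynomial.mem_roots hD0, Polynomial.IsRoot, hD,
        ← Polynomial.coe_aeval_eq_eval, ← AlgHom.comp_apply, MvPolynomial.comp_aeval]
      simp only [Polynomial.aeval_X]
      rw [aeval_eq_eval]
      refine (congrArg (fun v => eval v G) (funext fun i => ?_)).trans hx.2.1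
      fin_cases i
      · rfl
      · exact hx.2.2
    · rw [Finset.mem_coe, Finset.mem_filter] at hx hy
      funext i
      fin_cases i
      · exact e
      · exact (hx.2.2.symm.trans e).trans hy.2.2
    · rw [hD, G.as_sum, map_sum]
      refine Polynomial.natDegree_sum_le_of_forall_le _ _ fun s hs => ?_
      rw [aeval_monomial, Finsupp.prod_fintype _ _ fun i => pow_zero _, Fin.prod_univ_two,
        ← pow_add,
        Polynomial.algebraMap_eq]
      refine (Polynomial.natDegree_C_mul_X_pow_le _ _).trans ?_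
      have h1 := (le_totalDegree hs).trans hdeg
      rwa [CurveRH.sum_eq_add] at h1
  have hc := hsplit.trans (Nat.add_le_add_left (collisions_le hf) _)
  have hVq : Nat.card (Set.range fun a => f.eval a) ≤ Nat.card k :=
    Nat.card_le_card_of_injective _ Subtype.val_injective
  have hcR : (Nat.card {x : Fin 2 → k // eval x G = 0} : ℝ) ≤ f.natDegree +
      f.natDegree * ((Nat.card k : ℝ) - Nat.card (Set.range fun a => f.eval a)) := by
    rw [← Nat.cast_sub hVq]
    exact_mod_cast hc
  have hd : (((f.natDegree - 1) * (f.natDegree - 2) : ℕ) : ℝ) * Real.sqrt (Nat.card k) ≤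
      (f.natDegree * f.natDegree : ℕ) * Real.sqrt (Nat.card k) :=
    mul_le_mul_of_nonneg_right (Nat.cast_le.2 (Nat.mul_le_mul (Nat.sub_le _ _) (Nat.sub_le _ _)))
      (Real.sqrt_nonneg _)
  rw [collisionError]
  push_cast at hW hd ⊢
  linarith

/-- The size beyond which the theorems apply. -/
def sizeBound (n : ℕ) : ℕ := (n * n + CurveRH.planeError n + n + 2) ^ 2

/-- **Davenport and Lewis.** -/
theorem not_bijective_of_factor [Finite k] {f : Polynomial k} (hf : 0 < f.natDegree)
    (hq : sizeBound f.natDegree ≤ Nat.card k) {G : MvPolynomial (Fin 2) k} (hG : G ∣ diffQuot f)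
    (hdiag : ¬(X 0 - X 1 : MvPolynomial (Fin 2) k) ∣ G)
    (hirr : Irreducible (G.map (algebraMap k (AlgebraicClosure k)))) :
    ¬Function.Bijective fun a => f.eval a := by
  intro hbij
  have h := card_le_of_factor hf hG hdiag hirr
  rw [hbij.surjective.range_eq, Nat.card_univ, sub_self, mul_zero, zero_add, collisionError] at h
  have hs : (((f.natDegree * f.natDegree + CurveRH.planeError f.natDegree + f.natDegree + 2 : ℕ)) :
      ℝ) ≤ Real.sqrt (Nat.card k) :=
    Real.le_sqrt_of_sq_le (by exact_mod_cast hq)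
  have hsq := Real.mul_self_sqrt (Nat.cast_nonneg (Nat.card k) : (0 : ℝ) ≤ Nat.card k)
  push_cast at h hs
  nlinarith [Real.sqrt_nonneg (Nat.card k : ℝ),
    (Nat.cast_nonneg (CurveRH.planeError f.natDegree) : (0 : ℝ) ≤ _),
    (Nat.cast_nonneg f.natDegree : (0 : ℝ) ≤ _)]

/-- **The conjecture of Carlitz, tame case**, in the sharper form. -/
theorem coprime_of_bijective [Finite k] {f : Polynomial k} (hp : (f.natDegree : k) ≠ 0)
    (hq : sizeBound f.natDegree ≤ Nat.card k) (hbij : Function.Bijective fun a => f.eval a) :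
    Nat.Coprime f.natDegree (Nat.card k - 1) := by
  by_contra hgcd
  obtain ⟨H, h1, h2, h3⟩ := exists_absolutelyIrreducible_of_gcd hp hgcd
  exact not_bijective_of_factor (Nat.pos_of_ne_zero fun e => hp (by rw [e, Nat.cast_zero])) hq
    h1 h2 h3 hbij

theorem not_bijective_of_even [Finite k] {f : Polynomial k} (hp : (f.natDegree : k) ≠ 0)
    (heven : Even f.natDegree) (hq : sizeBound f.natDegree ≤ Nat.card k) :
    ¬Function.Bijective fun a => f.eval a := by
  intro hbij
  have h := coprime_of_bijective hp hq hbij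
  obtain ⟨r, hr⟩ := heven
  have := Fintype.ofFinite k
  obtain ⟨p, hpc⟩ := CharP.exists k
  have hodd : Odd (Nat.card k) := by
    refine Nat.not_even_iff_odd.1 fun he => hp ?_
    have h2 : ((Nat.card k : ℕ) : k) = 0 := by
      rw [Nat.card_eq_fintype_card]; exact Nat.cast_card_eq_zero k
    obtain ⟨n, hpp, hcard⟩ := FiniteField.card k p
    have hp2 : p = 2 := by
      rw [Nat.card_eq_fintype_card, hcard] at he
      exact ((Nat.prime_dvd_prime_iff_eq Nat.prime_two hpp).1
        (Nat.prime_two.dvd_of_dvd_pow (even_iff_two_dvd.1 he))).symm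
    subst hp2
    rw [hr, ← two_mul, Nat.cast_mul, CharP.cast_eq_zero k 2, zero_mul]
  obtain ⟨s, hs⟩ := hodd
  have hdvd : 2 ∣ Nat.gcd f.natDegree (Nat.card k - 1) :=
    Nat.dvd_gcd ⟨r, by omega⟩ ⟨s, by omega⟩
  rw [h] at hdvd
  simp at hdvd

/-- **An integer polynomial of even degree permutes only finitely many prime fields.** -/
theorem exists_not_bijective_mod (f : Polynomial ℤ) (hn : 0 < f.natDegree)
    (heven : Even f.natDegree) :
    ∃ p₀ : ℕ, ∀ p : ℕ, ∀ [Fact p.Prime], p₀ ≤ p →
      ¬Function.Bijective fun a : ZMod p => (f.map (Int.castRingHom (ZMod p))).eval a := by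
  refine ⟨max (sizeBound f.natDegree) (max (f.natDegree + 1) (f.leadingCoeff.natAbs + 1)),
    fun p hp hle => ?_⟩
  have hlc : (Int.castRingHom (ZMod p)) f.leadingCoeff ≠ 0 := by
    rw [eq_intCast, ne_eq, ZMod.intCast_zmod_eq_zero_iff_dvd]
    intro hdvd
    have h1 := Int.natAbs_dvd_natAbs.2 hdvd
    have h2 := Nat.le_of_dvd (Int.natAbs_pos.2 (Polynomial.leadingCoeff_ne_zero.2
      fun e => by simp [e] at hn)) h1
    simp at h2
    omega
  have hdeg : (f.map (Int.castRingHom (ZMod p))).natDegree = f.natDegree :=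
    Polynomial.natDegree_map_of_leadingCoeff_ne_zero _ hlc
  refine not_bijective_of_even ?_ (hdeg.symm ▸ heven) ?_
  · rw [hdeg, ne_eq, ZMod.natCast_eq_zero_iff]
    intro hdvd
    have := Nat.le_of_dvd hn hdvd
    omega
  · rw [hdeg, Nat.card_zmod]
    exact le_of_max_le_left hle

end FA.ExceptionalPoly

end
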