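import Fermat.Agent.AxFiniteFields.Transfer
import Fermat.Agent.CurveRH.LangWeil
import Mathlib.FieldTheory.Separable
import Mathlib.RingTheory.UniqueFactorizationDomain.Basic

/-!
# The factor at a rational point at infinity

If the form of highest degree of a polynomial over a finite field has a simple rational zero, the
factor carrying that zero is absolutely irreducible: the factors over the algebraic closure are
permuted by Frobenius and only one of them carries the zero.
-/

set_option autoImplicit false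
set_option linter.style.haveILetI false

noncomputable section

namespace FA.ExceptionalPoly

open MvPolynomial FA.AxFiniteFields

variable {k : Type*} [Field k]

/-- `G (X T, T)`. -/
def spread : MvPolynomial (Fin 2) k →ₐ[k] Polynomial (Polynomial k) :=
  aeval ![Polynomial.C Polynomial.X * Polynomial.X, Polynomial.X]

theorem spread_monomial (s : Fin 2 →₀ ℕ) (r : k) :
    spread (monomial s r) =
      Polynomial.C (Polynomial.C r * Polynomial.X ^ s 0) * Polynomial.X ^ (s 0 + s 1) := by
  rw [spread, aeval_monomial, Finsupp.prod_fintype _ _ fun i => pow_zero _, Fin.prod_univ_two]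
  simp [Polynomial.algebraMap_apply, mul_pow, pow_add, mul_assoc, mul_left_comm]

theorem coeff_spread (G : MvPolynomial (Fin 2) k) (s : Fin 2 →₀ ℕ) :
    ((spread G).coeff (s 0 + s 1)).coeff (s 0) = G.coeff s := by
  classical
  conv_lhs => rw [G.as_sum, map_sum]
  rw [Polynomial.finsetSum_coeff, Polynomial.finsetSum_coeff, Finset.sum_eq_single s]
  · rw [spread_monomial, Polynomial.coeff_C_mul_X_pow, if_pos rfl, Polynomial.coeff_C_mul_X_pow,
      if_pos rfl]
  · intro t _ ht
    rw [spread_monomial, Polynomial.coeff_C_mul_X_pow]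
    split_ifs with h1
    · rw [Polynomial.coeff_C_mul_X_pow, if_neg]
      intro h0
      refine ht (Finsupp.ext fun i => ?_)
      fin_cases i
      · exact h0.symm
      · show t 1 = s 1
        omega
    · rw [Polynomial.coeff_zero]
  · intro hs
    rw [notMem_support_iff.1 hs, spread_monomial]
    simp

theorem spread_ne_zero {G : MvPolynomial (Fin 2) k} (h : G ≠ 0) : spread G ≠ 0 := fun e => h (by
  ext s
  rw [← coeff_spread, e, Polynomial.coeff_zero, Polynomial.coeff_zero, coeff_zero])

/-- The form of highest degree at `(X, 1)`. -/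
def topForm (G : MvPolynomial (Fin 2) k) : Polynomial k := (spread G).leadingCoeff

theorem topForm_mul (G H : MvPolynomial (Fin 2) k) :
    topForm (G * H) = topForm G * topForm H := by
  rw [topForm, map_mul, Polynomial.leadingCoeff_mul]
  rfl

theorem topForm_dvd {G H : MvPolynomial (Fin 2) k} (h : G ∣ H) : topForm G ∣ topForm H := by
  obtain ⟨c, rfl⟩ := h
  rw [topForm_mul]
  exact Dvd.intro _ rfl

theorem topForm_ne_zero {G : MvPolynomial (Fin 2) k} (h : G ≠ 0) : topForm G ≠ 0 :=
  Polynomial.leadingCoeff_ne_zero.2 (spread_ne_zero h)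

theorem topForm_isUnit {G : MvPolynomial (Fin 2) k} (h : IsUnit G) : IsUnit (topForm G) := by
  obtain ⟨u, hu⟩ := h.exists_right_inv
  refine IsUnit.of_mul_eq_one (topForm u) ?_
  rw [← topForm_mul, hu, topForm, map_one, Polynomial.leadingCoeff_one]

theorem spread_map {L : Type*} [Field L] (φ : k →+* L) (G : MvPolynomial (Fin 2) k) :
    spread (G.map φ) = (spread G).map (Polynomial.mapRingHom φ) := by
  induction G using MvPolynomial.induction_on with
  | C r => simp [spread]
  | add u v hu hv => simp only [map_add, Polynomial.map_add, hu, hv]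
  | mul_X u i hu =>
    simp only [map_mul, Polynomial.map_mul, hu, map_X, spread, aeval_X] at hu ⊢
    fin_cases i <;> simp

theorem topForm_map {L : Type*} [Field L] (φ : k →+* L) (G : MvPolynomial (Fin 2) k) :
    topForm (G.map φ) = (topForm G).map φ := by
  rw [topForm, spread_map, Polynomial.leadingCoeff_map_of_injective]
  · rfl
  · exact Polynomial.map_injective φ φ.injective

/-- An irreducible factor carries every zero of the form of highest degree. -/
theorem exists_factor_of_root {G : MvPolynomial (Fin 2) k} (hG : G ≠ 0) {z : k}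
    (hz : (topForm G).IsRoot z) :
    ∃ H, Irreducible H ∧ H ∣ G ∧ (topForm H).IsRoot z := by
  revert hz
  induction G using UniqueFactorizationMonoid.induction_on_prime with
  | h₁ => exact absurd rfl hG
  | h₂ u hu =>
    intro hz
    obtain ⟨r, hr, hr'⟩ := Polynomial.isUnit_iff.1 (topForm_isUnit hu)
    rw [← hr', Polynomial.IsRoot, Polynomial.eval_C] at hz
    exact absurd hz hr.ne_zero
  | h₃ a q ha hq ih =>
    intro hz
    rw [topForm_mul, Polynomial.IsRoot, Polynomial.eval_mul, mul_eq_zero] at hz
    rcases hz with hz | hz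
    · exact ⟨q, hq.irreducible, Dvd.intro _ rfl, hz⟩
    · obtain ⟨H, h1, h2, h3⟩ := ih ha hz
      exact ⟨H, h1, h2.mul_left q, h3⟩

/-- The elements fixed by Frobenius come from the finite field. -/
theorem exists_of_pow_card_eq {K : Type*} [Field K] [Finite k] (φ : k →+* K) {a : K}
    (ha : a ^ Nat.card k = a) : ∃ r, φ r = a := by
  classical
  have := Fintype.ofFinite k
  have hQ : 1 < Fintype.card k := Fintype.one_lt_card
  have hne : (Polynomial.X ^ Fintype.card k - Polynomial.X : Polynomial K) ≠ 0 :=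
    FiniteField.X_pow_card_sub_X_ne_zero K hQ
  have heq : Finset.univ.image φ =
      (Polynomial.X ^ Fintype.card k - Polynomial.X : Polynomial K).roots.toFinset := by
    refine Finset.eq_of_subset_of_card_le (fun y hy => ?_) ?_
    · obtain ⟨r, -, rfl⟩ := Finset.mem_image.1 hy
      rw [Multiset.mem_toFinset, Polynomial.mem_roots hne]
      simp [← map_pow, FiniteField.pow_card]
    · rw [Finset.card_image_of_injective _ φ.injective, Finset.card_univ]
      exact ((Multiset.toFinset_card_le _).trans (Polynomial.card_roots' _)).trans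
        (FiniteField.X_pow_card_sub_X_natDegree_eq K hQ).le
  have hmem : a ∈ Finset.univ.image φ := by
    rw [heq, Multiset.mem_toFinset, Polynomial.mem_roots hne]
    simpa [sub_eq_zero, Nat.card_eq_fintype_card] using ha
  obtain ⟨r, -, hr⟩ := Finset.mem_image.1 hmem
  exact ⟨r, hr⟩

/-- **A simple rational zero at infinity gives an absolutely irreducible factor.** -/
theorem exists_absolutelyIrreducible_factor {k : Type*} [Field k] [Finite k]
    {G : MvPolynomial (Fin 2) k} (hG : G ≠ 0) {z : k} (hz : (topForm G).IsRoot z)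
    (hsimple : ¬(Polynomial.X - Polynomial.C z) ^ 2 ∣ topForm G) :
    ∃ H, H ∣ G ∧ Irreducible (H.map (algebraMap k (AlgebraicClosure k))) := by
  classical
  obtain ⟨H, hH, hHG, hHz⟩ := exists_factor_of_root hG hz
  refine ⟨H, hHG, ?_⟩
  obtain ⟨p, hp⟩ := CharP.exists k
  haveI := hp
  haveI : Fact p.Prime := ⟨CharP.char_is_prime k p⟩
  haveI : CharP (AlgebraicClosure k) p :=
    charP_of_injective_algebraMap (algebraMap k (AlgebraicClosure k)).injective p
  have := Fintype.ofFinite k
  obtain ⟨e, he⟩ : ∃ e, Nat.card k = p ^ e := by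
    obtain ⟨e, -, hd⟩ := FiniteField.card k p
    exact ⟨e, by rw [Nat.card_eq_fintype_card, hd]⟩
  obtain ⟨ι, hι⟩ : ∃ ι, ι = algebraMap k (AlgebraicClosure k) := ⟨_, rfl⟩
  rw [← hι]
  obtain ⟨σ, hσ⟩ : ∃ σ, σ = (CurveRH.frob (AlgebraicClosure k) p e).toRingHom := ⟨_, rfl⟩
  have hσapp : ∀ a, σ a = a ^ Nat.card k := fun a => by
    rw [hσ, he]; exact CurveRH.frob_apply p e a
  have hσι : σ.comp ι = ι := RingHom.ext fun r => by
    rw [RingHom.comp_apply, hσapp, ← map_pow, Nat.card_eq_fintype_card, FiniteField.pow_card]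
  have hσbij : Function.Bijective σ := hσ ▸ (CurveRH.frob (AlgebraicClosure k) p e).bijective
  have hinj := MvPolynomial.map_injective ι ι.injective (σ := Fin 2)
  have hH0 : H.map ι ≠ 0 := fun e => hH.ne_zero (hinj (by rw [e, map_zero]))
  -- a factor over the algebraic closure carrying the zero
  obtain ⟨P₀, hP₀, hP₀H, hP₀z⟩ := exists_factor_of_root hH0 (z := ι z) (by
    rw [topForm_map, Polynomial.IsRoot, Polynomial.eval_map, Polynomial.eval₂_at_apply, hHz,
      map_zero])
  obtain ⟨s, hs, hP₀s⟩ := nonconstant_iff.2 ⟨hP₀.not_isUnit, hP₀.ne_zero⟩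
  obtain ⟨P, hP⟩ : ∃ P, P = C (P₀.coeff s)⁻¹ * P₀ := ⟨_, rfl⟩
  have hassoc : Associated P₀ P :=
    hP ▸ (associated_unit_mul_right P₀ _ ((Ne.isUnit (inv_ne_zero hP₀s)).map C))
  have hPs : P.coeff s = 1 := by rw [hP, coeff_C_mul, inv_mul_cancel₀ hP₀s]
  have hPirr : Irreducible P := hassoc.irreducible hP₀
  have hPH : P ∣ H.map ι := hassoc.symm.dvd.trans hP₀H
  have hPz : (topForm P).IsRoot (ι z) :=
    Polynomial.IsRoot.dvd hP₀z (topForm_dvd hassoc.dvd)
  have hfix : (H.map ι).map σ = H.map ι := by rw [map_map, hσι]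
  obtain ⟨σe, hσe⟩ : ∃ σe : MvPolynomial (Fin 2) (AlgebraicClosure k) ≃+*
      MvPolynomial (Fin 2) (AlgebraicClosure k), ∀ u, σe u = u.map σ :=
    ⟨MvPolynomial.mapEquiv (Fin 2) (RingEquiv.ofBijective σ hσbij), fun _ => rfl⟩
  have hσPirr : Irreducible (P.map σ) := hσe P ▸ hPirr.map σe
  have hσPH : P.map σ ∣ H.map ι := hfix ▸ _root_.map_dvd (MvPolynomial.map σ) hPH
  have hσPz : (topForm (P.map σ)).IsRoot (ι z) := by
    rw [topForm_map, Polynomial.IsRoot, ← show σ (ι z) = ι z from RingHom.congr_fun hσι z,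
      Polynomial.eval_map, Polynomial.eval₂_at_apply, hPz, map_zero]
  -- only one factor carries it
  have hsame : Associated P (P.map σ) := by
    by_contra hne
    obtain ⟨Q, hQ⟩ := hPH
    have hdQ : P.map σ ∣ Q :=
      ((hσPirr.prime).dvd_or_dvd (hQ ▸ hσPH)).resolve_left fun h =>
        hne (hσPirr.associated_of_dvd hPirr h).symm
    have h2 : topForm P * topForm (P.map σ) ∣ topForm (H.map ι) := by
      rw [hQ, topForm_mul]
      exact mul_dvd_mul_left _ (topForm_dvd hdQ)
    have h3 : (Polynomial.X - Polynomial.C (ι z)) ^ 2 ∣ (topForm G).map ι := by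
      rw [← topForm_map]
      refine (sq (Polynomial.X - Polynomial.C (ι z)) ▸
        mul_dvd_mul (Polynomial.dvd_iff_isRoot.2 hPz) (Polynomial.dvd_iff_isRoot.2 hσPz)).trans
        (h2.trans (topForm_dvd (_root_.map_dvd (MvPolynomial.map ι) hHG)))
    refine hsimple ((Polynomial.map_dvd_map ι ι.injective
      ((Polynomial.monic_X_sub_C z).pow 2)).1 ?_)
    simpa using h3
  obtain ⟨u, hu⟩ := hsame
  obtain ⟨c, -, hc⟩ := isUnit_iff_eq_C_of_isReduced.1 u.isUnit
  have hc1 : c = 1 := by
    have h := congrArg (MvPolynomial.coeff s) hu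
    rw [hc, mul_comm, coeff_C_mul, coeff_map, hPs, map_one, mul_one] at h
    exact h
  rw [hc, hc1, map_one, mul_one] at hu
  -- hence it is defined over `k`
  have hdesc : ∀ u : MvPolynomial (Fin 2) (AlgebraicClosure k), u.map σ = u →
      ∃ u₀ : MvPolynomial (Fin 2) k, u₀.map ι = u := fun u hu => by
    have hcoef : ∀ t, ∃ r, ι r = u.coeff t := fun t => exists_of_pow_card_eq ι (by
      rw [← hσapp, ← coeff_map, hu])
    choose r hr using hcoef
    exact ⟨∑ t ∈ u.support, monomial t (r t), by
      simp [map_sum, map_monomial, hr, ← MvPolynomial.as_sum u]⟩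
  obtain ⟨Q, hQ⟩ := hPH
  have hQfix : Q.map σ = Q := by
    refine mul_left_cancel₀ hPirr.ne_zero ?_
    conv_rhs => rw [← hQ, ← hfix, hQ, map_mul, ← hu]
  obtain ⟨P', hP'⟩ := hdesc P hu.symm
  obtain ⟨Q', hQ'⟩ := hdesc Q hQfix
  have hHPQ : H = P' * Q' := hinj (by rw [map_mul, hP', hQ', hQ])
  rcases hH.isUnit_or_isUnit hHPQ with h | h
  · exact absurd (hP' ▸ h.map (MvPolynomial.map ι)) hPirr.not_isUnit
  · rw [hQ]
    exact (associated_mul_unit_right P Q (hQ' ▸ h.map (MvPolynomial.map ι))).irreducible hPirr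

end FA.ExceptionalPoly

end
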